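import Fermat.Prelude.Def_GaloisRep_Flat
import Mathlib

/-!
The localisation of `ℤ` at a prime as a valuation ring, its residue map, and clearing of
denominators.
-/

set_option autoImplicit false

noncomputable section

namespace FLTAgent.Igusa

variable (ℓ : ℕ) [hℓ : Fact ℓ.Prime]

/-- the local ring -/
abbrev RL : Type := ↥(GaloisRep.ratLocalizedAt ℓ)

theorem den_ne_zero (q : RL ℓ) : ((q : ℚ).den : ZMod ℓ) ≠ 0 := by
  intro h
  rw [ZMod.natCast_eq_zero_iff] at h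
  exact hℓ.out.coprime_iff_not_dvd.mp (Nat.Coprime.symm (show Nat.Coprime (q : ℚ).den ℓ from q.2)) h

variable {ℓ} in
theorem red_eq {a : ℤ} {b : ℕ} (q : RL ℓ) (hb : (b : ZMod ℓ) ≠ 0) (h : (q : ℚ) * b = a) :
    ((q : ℚ).num : ZMod ℓ) / ((q : ℚ).den : ZMod ℓ) = (a : ZMod ℓ) / b := by
  rw [div_eq_div_iff (den_ne_zero ℓ q) hb]
  have h1 : (q : ℚ).num * (b : ℤ) = a * ((q : ℚ).den : ℤ) := by
    have e := Rat.num_div_den (q : ℚ)
    have hd : ((q : ℚ).den : ℚ) ≠ 0 := by exact_mod_cast (q : ℚ).den_ne_zero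
    rw [← e] at h
    field_simp at h
    have h2 : ((q : ℚ).num : ℚ) * b = a * ((q : ℚ).den : ℚ) := by linear_combination h
    exact_mod_cast h2
  exact_mod_cast congrArg (Int.cast : ℤ → ZMod ℓ) h1

/-- reduction mod `ℓ` -/
def red : RL ℓ →+* ZMod ℓ where
  toFun q := ((q : ℚ).num : ZMod ℓ) / ((q : ℚ).den : ZMod ℓ)
  map_zero' := by simp
  map_one' := by simp
  map_mul' x y := by
    rw [red_eq (a := (x : ℚ).num * (y : ℚ).num) (b := (x : ℚ).den * (y : ℚ).den) (x * y)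
      (by push_cast; exact mul_ne_zero (den_ne_zero ℓ x) (den_ne_zero ℓ y))
      (by push_cast; rw [mul_mul_mul_comm, Rat.mul_den_eq_num, Rat.mul_den_eq_num])]
    push_cast
    rw [mul_div_mul_comm]
  map_add' x y := by
    rw [red_eq (a := (x : ℚ).num * (y : ℚ).den + (y : ℚ).num * (x : ℚ).den)
      (b := (x : ℚ).den * (y : ℚ).den) (x + y)
      (by push_cast; exact mul_ne_zero (den_ne_zero ℓ x) (den_ne_zero ℓ y))
      (by
        push_cast
        rw [← Rat.mul_den_eq_num (x : ℚ), ← Rat.mul_den_eq_num (y : ℚ)]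
        ring)]
    push_cast
    rw [div_add_div _ _ (den_ne_zero ℓ x) (den_ne_zero ℓ y)]
    ring

theorem red_surjective : Function.Surjective (red ℓ) := fun c => by
  obtain ⟨n, rfl⟩ := ZMod.natCast_zmod_surjective c
  exact ⟨n, map_natCast _ n⟩

theorem red_eq_zero {x : RL ℓ} (h : red ℓ x = 0) : ∃ y : RL ℓ, x = (ℓ : RL ℓ) * y := by
  have h' : ((x : ℚ).num : ZMod ℓ) = 0 := (div_eq_zero_iff.mp h).resolve_right (den_ne_zero ℓ x)
  rw [ZMod.intCast_zmod_eq_zero_iff_dvd] at h'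
  obtain ⟨m, hm⟩ := h'
  have hmem : (m : ℚ) / (x : ℚ).den ∈ GaloisRep.ratLocalizedAt ℓ := by
    show Nat.Coprime ((m : ℚ) / (x : ℚ).den).den ℓ
    refine Nat.Coprime.coprime_dvd_left ?_ (x.2 : Nat.Coprime (x : ℚ).den ℓ)
    have := Rat.den_dvd m ((x : ℚ).den : ℤ)
    rw [Rat.divInt_eq_div] at this
    push_cast at this
    exact_mod_cast this
  refine ⟨⟨_, hmem⟩, Subtype.ext ?_⟩
  push_cast
  rw [← mul_div_assoc, eq_div_iff (by exact_mod_cast (x : ℚ).den_ne_zero), Rat.mul_den_eq_num, hm]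
  push_cast
  ring

theorem red_natCast_self : red ℓ (ℓ : RL ℓ) = 0 := by rw [map_natCast, ZMod.natCast_self]

theorem ell_ne_zero : (ℓ : RL ℓ) ≠ 0 := fun h => by
  have h' := congrArg Subtype.val h
  push_cast at h'
  exact hℓ.out.ne_zero (by exact_mod_cast h')

theorem mem_of_den_ne {x : ℚ} (h : (x.den : ZMod ℓ) ≠ 0) : x ∈ GaloisRep.ratLocalizedAt ℓ := by
  show Nat.Coprime x.den ℓ
  rw [Nat.coprime_comm, hℓ.out.coprime_iff_not_dvd]
  rwa [Ne, ZMod.natCast_eq_zero_iff] at h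

theorem inv_mem_of_not_mem {x : ℚ} (h : x ∉ GaloisRep.ratLocalizedAt ℓ) :
    ∃ y : RL ℓ, (y : ℚ) = x⁻¹ ∧ red ℓ y = 0 := by
  have hd : ℓ ∣ x.den := by
    by_contra hd
    exact h (mem_of_den_ne ℓ (by rwa [Ne, ZMod.natCast_eq_zero_iff]))
  have hx0 : x.num ≠ 0 := fun h0 => by
    rw [Rat.zero_of_num_zero h0] at h
    exact h (zero_mem _)
  have hn : ¬ ℓ ∣ x.num.natAbs := fun hn =>
    hℓ.out.ne_one (Nat.dvd_one.mp (x.reduced ▸ Nat.dvd_gcd hn hd))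
  have hnum : ((x.num.natAbs : ℕ) : ZMod ℓ) ≠ 0 := by rwa [Ne, ZMod.natCast_eq_zero_iff]
  refine ⟨⟨x⁻¹, mem_of_den_ne ℓ (by rwa [Rat.den_inv, if_neg hx0])⟩, rfl, ?_⟩
  show ((x⁻¹).num : ZMod ℓ) / _ = 0
  rw [Rat.num_inv]
  have : ((x.den : ℕ) : ZMod ℓ) = 0 := (ZMod.natCast_eq_zero_iff _ _).mpr hd
  simp [this]

theorem mem_or_inv_mem (x : ℚ) :
    x ∈ GaloisRep.ratLocalizedAt ℓ ∨ x⁻¹ ∈ GaloisRep.ratLocalizedAt ℓ := by
  by_cases h : x ∈ GaloisRep.ratLocalizedAt ℓ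
  · exact Or.inl h
  · obtain ⟨y, hy, -⟩ := inv_mem_of_not_mem ℓ h
    exact Or.inr (hy ▸ y.2)

/-- the valuation subring -/
def RV : ValuationSubring ℚ where
  toSubring := GaloisRep.ratLocalizedAt ℓ
  mem_or_inv_mem' := mem_or_inv_mem ℓ

theorem isUnit_of_red_ne_zero {x : RL ℓ} (h : red ℓ x ≠ 0) : IsUnit x := by
  have hx : (x : ℚ) ≠ 0 := fun h0 => h (by rw [show x = 0 from Subtype.ext h0, map_zero])
  have hxi : (x : ℚ)⁻¹ ∈ GaloisRep.ratLocalizedAt ℓ := by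
    by_contra hxi
    obtain ⟨y, hy, hy0⟩ := inv_mem_of_not_mem ℓ hxi
    rw [inv_inv] at hy
    exact h (by rw [show x = y from Subtype.ext hy.symm, hy0])
  exact IsUnit.of_mul_eq_one ⟨_, hxi⟩ (Subtype.ext (mul_inv_cancel₀ hx))

instance : ValuationRing (RL ℓ) := inferInstanceAs (ValuationRing (RV ℓ))

theorem irreducible_ell : Irreducible (ℓ : RL ℓ) := by
  refine ⟨fun h => ?_, fun a b hab => ?_⟩
  · have := (h.map (red ℓ)).ne_zero
    rw [red_natCast_self] at this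
    exact this rfl
  · by_contra hne
    push Not at hne
    obtain ⟨c, rfl⟩ := red_eq_zero ℓ (by_contra fun h => hne.1 (isUnit_of_red_ne_zero ℓ h))
    obtain ⟨d, rfl⟩ := red_eq_zero ℓ (by_contra fun h => hne.2 (isUnit_of_red_ne_zero ℓ h))
    have h1 : red ℓ ((ℓ : RL ℓ) * (c * d)) = 0 := by rw [map_mul, red_natCast_self, zero_mul]
    have h2 : (ℓ : RL ℓ) * (c * d) = 1 :=
      mul_left_cancel₀ (ell_ne_zero ℓ) (by linear_combination -hab)
    rw [h2, map_one] at h1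
    exact one_ne_zero h1

theorem exists_pow_mul_unit (a : RL ℓ) (ha : a ≠ 0) :
    ∃ (n : ℕ) (u : RL ℓ), IsUnit u ∧ a = (ℓ : RL ℓ) ^ n * u := by
  have hnum : (a : ℚ).num.natAbs ≠ 0 := by simpa using ha
  obtain ⟨n, m, hm, hnm⟩ := Nat.exists_eq_pow_mul_and_not_dvd hnum ℓ hℓ.out.ne_one
  have hsgn : ∃ m' : ℤ, (a : ℚ).num = (ℓ : ℤ) ^ n * m' ∧ (m' : ZMod ℓ) ≠ 0 := by
    have h0 : ((m : ℕ) : ZMod ℓ) ≠ 0 := by rwa [Ne, ZMod.natCast_eq_zero_iff]
    rcases Int.natAbs_eq (a : ℚ).num with h | h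
    · exact ⟨m, by rw [h, hnm]; push_cast; ring, by simpa using h0⟩
    · exact ⟨-m, by rw [h, hnm]; push_cast; ring, by simpa using h0⟩
  obtain ⟨m', hm', hm0⟩ := hsgn
  have hd : ((a : ℚ).den : ℚ) ≠ 0 := by exact_mod_cast (a : ℚ).den_ne_zero
  have hmem : (m' : ℚ) / (a : ℚ).den ∈ GaloisRep.ratLocalizedAt ℓ := by
    show Nat.Coprime ((m' : ℚ) / (a : ℚ).den).den ℓ
    refine Nat.Coprime.coprime_dvd_left ?_ (a.2 : Nat.Coprime (a : ℚ).den ℓ)
    have := Rat.den_dvd m' ((a : ℚ).den : ℤ)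
    rw [Rat.divInt_eq_div] at this
    push_cast at this
    exact_mod_cast this
  refine ⟨n, ⟨_, hmem⟩, isUnit_of_red_ne_zero ℓ ?_, Subtype.ext ?_⟩
  · show (((m' : ℚ) / (a : ℚ).den).num : ZMod ℓ) / _ ≠ 0
    refine ((red_eq (a := m') (b := (a : ℚ).den) ⟨_, hmem⟩ (den_ne_zero ℓ a) ?_).trans_ne ?_)
    · show (m' : ℚ) / (a : ℚ).den * (a : ℚ).den = m'
      rw [div_mul_cancel₀ _ hd]
    · exact div_ne_zero hm0 (den_ne_zero ℓ a)
  · push_cast
    rw [← mul_div_assoc, eq_div_iff hd, Rat.mul_den_eq_num, hm']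
    push_cast
    ring

instance instDVR : IsDiscreteValuationRing (RL ℓ) :=
  IsDiscreteValuationRing.ofHasUnitMulPowIrreducibleFactorization
    ⟨(ℓ : RL ℓ), irreducible_ell ℓ, fun {x} hx => by
      obtain ⟨n, u, hu, rfl⟩ := exists_pow_mul_unit ℓ x hx
      exact ⟨n, hu.unit, rfl⟩⟩

/-- a finite family of rationals, not all zero, can be made primitive -/
theorem exists_primitive {ι : Type*} [Finite ι] (c : ι → ℚ) (hc : ∃ i, c i ≠ 0) :
    ∃ (s : ℚ) (r : ι → RL ℓ), s ≠ 0 ∧ (∀ i, (r i : ℚ) = s * c i) ∧ ∃ i, red ℓ (r i) ≠ 0 := by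
  classical
  haveI := Fintype.ofFinite ι
  obtain ⟨i₀, hi₀, hmin⟩ := Finset.exists_min_image (Finset.univ.filter fun i => c i ≠ 0)
    (fun i => padicValRat ℓ (c i)) (by obtain ⟨i, hi⟩ := hc; exact ⟨i, by simp [hi]⟩)
  have hne : c i₀ ≠ 0 := by simpa using hi₀
  have hmem : ∀ i, (c i₀)⁻¹ * c i ∈ GaloisRep.ratLocalizedAt ℓ := by
    intro i
    rcases eq_or_ne (c i) 0 with h0 | h0
    · rw [h0, mul_zero]; exact zero_mem _
    refine mem_of_den_ne ℓ ?_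
    rw [Ne, ZMod.natCast_eq_zero_iff]
    intro hd
    set x := (c i₀)⁻¹ * c i
    have hv : 0 ≤ padicValRat ℓ x := by
      rw [padicValRat.mul (inv_ne_zero hne) h0, padicValRat.inv]
      have := hmin i (by simp [h0])
      omega
    have hn : ¬ ℓ ∣ x.num.natAbs := fun hn =>
      hℓ.out.ne_one (Nat.dvd_one.mp (x.reduced ▸ Nat.dvd_gcd hn hd))
    have h1 : padicValRat ℓ x = (padicValInt ℓ x.num : ℤ) - padicValNat ℓ x.den := rfl
    have h2 : padicValInt ℓ x.num = 0 := padicValNat.eq_zero_of_not_dvd hn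
    have h3 : 1 ≤ padicValNat ℓ x.den := one_le_padicValNat_of_dvd x.den_ne_zero hd
    omega
  refine ⟨(c i₀)⁻¹, fun i => ⟨_, hmem i⟩, inv_ne_zero hne, fun i => rfl, i₀, ?_⟩
  have : (⟨_, hmem i₀⟩ : RL ℓ) = 1 := Subtype.ext (inv_mul_cancel₀ hne)
  show red ℓ ⟨_, hmem i₀⟩ ≠ 0
  rw [this, map_one]
  exact one_ne_zero

end FLTAgent.Igusa
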