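import Fermat.Agent.Igusa.Saturation
import Fermat.Prelude.Def_ModularCurve_IgusaScheme

/-!
The coordinates `j` and `1/j` over the local ring, and the two charts read in `ℚ((q))`.
-/

set_option autoImplicit false

noncomputable section

open ModularCurve Polynomial ModularCurve.IgusaScheme

namespace FLTAgent.Igusa

variable (N : ℕ) [NeZero N] (ℓ : ℕ) [hℓ : Fact ℓ.Prime]

/-- the inverse of `j` over any ring -/
def jInvR (R : Type*) [CommRing R] : LaurentSeries R :=
  HahnSeries.single (1 : ℤ) 1 *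
    HahnSeries.ofPowerSeries ℤ R (PowerSeries.invOfUnit (jNum.map (Int.castRingHom R)) 1)

theorem jqModC_mul_jInvR (R : Type*) [CommRing R] : jqModC R * jInvR R = 1 := by
  have h : jNum.map (Int.castRingHom R) *
      PowerSeries.invOfUnit (jNum.map (Int.castRingHom R)) 1 = 1 := by
    refine PowerSeries.mul_invOfUnit _ _ ?_
    rw [← PowerSeries.coeff_zero_eq_constantCoeff, PowerSeries.coeff_map,
      PowerSeries.coeff_zero_eq_constantCoeff, constantCoeff_jNum, map_one, Units.val_one]
  rw [jqModC, jInvR, mul_mul_mul_comm, HahnSeries.single_mul_single, ← map_mul, h, map_one,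
    mul_one]
  simp

theorem toQ_jInv : toQ ℓ (jInvR (RL ℓ)) = jq⁻¹ := by
  refine eq_inv_of_mul_eq_one_left ?_
  rw [← toQ_jR ℓ, ← map_mul, mul_comm, jqModC_mul_jInvR, map_one]

theorem toF_jInv : toF ℓ (jInvR (RL ℓ)) = (jqModC (ZMod ℓ))⁻¹ := by
  refine eq_inv_of_mul_eq_one_left ?_
  rw [← toF_jR ℓ, ← map_mul, mul_comm, jqModC_mul_jInvR, map_one]

theorem transcendental_jqModC (K : Type*) [Field K] : Transcendental K (jqModC K) :=
  fun ⟨P, hP, hPj⟩ => hP (pev_jqModC_eq_zero (by rw [pev_eq_aeval]; exact hPj))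

/-- the coordinate of the finite chart -/
def coordFin : Coord ℓ where
  U := jR ℓ
  gen := by rw [toQ_jR]
  transQ := by rw [toQ_jR]; exact transcendental_jq
  transF P h := pev_jqModC_eq_zero (by rwa [toF_jR] at h)

/-- the coordinate of the chart at infinity -/
def coordInf : Coord ℓ where
  U := jInvR (RL ℓ)
  gen := by
    rw [toQ_jInv]
    refine le_antisymm ?_ ?_ <;> rw [IntermediateField.adjoin_simple_le_iff]
    · exact inv_mem (IntermediateField.mem_adjoin_simple_self ℚ jq)
    · have := inv_mem (IntermediateField.mem_adjoin_simple_self ℚ jq⁻¹)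
      rwa [inv_inv] at this
  transQ := by
    rw [toQ_jInv]
    intro h
    have := h.inv
    rw [inv_inv] at this
    exact transcendental_jq this
  transF P h := by
    rw [toF_jInv, pev_eq_aeval] at h
    by_contra hP
    have h2 : IsAlgebraic (ZMod ℓ) (jqModC (ZMod ℓ))⁻¹ := ⟨P, hP, h⟩
    have := IsAlgebraic.inv h2
    rw [inv_inv] at this
    exact transcendental_jqModC _ this

variable {N ℓ}

theorem coe_algebraMap_RL (a : RL ℓ) :
    ((algebraMap (RL ℓ) ↥(modularFunctionFieldFull N) a : ↥(modularFunctionFieldFull N)) :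
      LaurentSeries ℚ) = HahnSeries.C (a : ℚ) := by
  rw [IsScalarTower.algebraMap_apply (RL ℓ) ℚ ↥(modularFunctionFieldFull N), eq_ratCast]
  rw [SubfieldClass.coe_ratCast]
  exact (eq_ratCast (HahnSeries.C : ℚ →+* LaurentSeries ℚ) _).symm

/-- a chart of the scheme is the integral closure of `ℤ_(ℓ)[u]` -/
theorem mem_chartAlg_iff_series (C : Coord ℓ) {s : ↥(modularFunctionFieldFull N)}
    (hs : (s : LaurentSeries ℚ) = toQ ℓ C.U) (x : ↥(modularFunctionFieldFull N)) :
    x ∈ chartAlg N ℓ {s} ↔ IsIntegral ↥(C.ring) (x : LaurentSeries ℚ) := by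
  have hfwd : ∀ y ∈ Algebra.adjoin (RL ℓ) ({s} : Set ↥(modularFunctionFieldFull N)),
      (y : LaurentSeries ℚ) ∈ C.ring := by
    intro y hy
    induction hy using Algebra.adjoin_induction with
    | mem z hz =>
      rw [Set.mem_singleton_iff] at hz
      subst hz
      exact ⟨Polynomial.X, by simp [pev, hs]⟩
    | algebraMap a =>
      refine ⟨Polynomial.C a, ?_⟩
      simp only [RingHom.comp_apply, pev, Polynomial.coe_eval₂RingHom, Polynomial.eval₂_C, toQ,
        coeffMap_C]
      rw [coe_algebraMap_RL]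
      rfl
    | add y z _ _ h1 h2 => exact add_mem h1 h2
    | mul y z _ _ h1 h2 => exact mul_mem h1 h2
  rw [mem_chartAlg_iff]
  constructor
  · intro h
    exact h.map_of_comp_eq
      ({ toFun := fun y => ⟨_, hfwd y.1 y.2⟩
         map_one' := rfl, map_mul' := fun _ _ => rfl
         map_zero' := rfl, map_add' := fun _ _ => rfl } :
        ↥(Algebra.adjoin (RL ℓ) ({s} : Set ↥(modularFunctionFieldFull N))) →+* ↥(C.ring))
      (algebraMap ↥(modularFunctionFieldFull N) (LaurentSeries ℚ)) (RingHom.ext fun _ => rfl)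
  · rintro ⟨p, hp, hev⟩
    have hlift : p.map (algebraMap ↥(C.ring) (LaurentSeries ℚ)) ∈ Polynomial.lifts
        ((algebraMap ↥(modularFunctionFieldFull N) (LaurentSeries ℚ)).comp
          (algebraMap ↥(Algebra.adjoin (RL ℓ) ({s} : Set ↥(modularFunctionFieldFull N)))
            ↥(modularFunctionFieldFull N))) := by
      refine (Polynomial.lifts_iff_coeff_lifts _).mpr fun k => ?_
      rw [Polynomial.coeff_map]
      obtain ⟨Q, hQ⟩ := (p.coeff k).2
      refine ⟨⟨Polynomial.aeval s Q, Polynomial.aeval_mem_adjoin_singleton _ _⟩, ?_⟩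
      show ((Polynomial.aeval s Q : ↥(modularFunctionFieldFull N)) : LaurentSeries ℚ) = (p.coeff k).1
      rw [← hQ, RingHom.comp_apply, pev, Polynomial.coe_eval₂RingHom, Polynomial.hom_eval₂,
        Polynomial.aeval_def]
      refine (Polynomial.hom_eval₂ Q _ (algebraMap ↥(modularFunctionFieldFull N) (LaurentSeries ℚ)) s).trans ?_
      congr 1
      · refine RingHom.ext fun a => ?_
        simp only [RingHom.comp_apply, toQ, coeffMap_C]
        exact coe_algebraMap_RL (N := N) a
    obtain ⟨q, hq, -, hqm⟩ := Polynomial.lifts_and_natDegree_eq_and_monic hlift (hp.map _)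
    refine ⟨q, hqm, ?_⟩
    apply (algebraMap ↥(modularFunctionFieldFull N) (LaurentSeries ℚ)).injective
    rw [Polynomial.hom_eval₂, map_zero, Polynomial.eval₂_eq_eval_map, hq,
      ← Polynomial.eval₂_eq_eval_map]
    exact hev

theorem coe_jFull_eq_toQ : ((jFull N : ↥(modularFunctionFieldFull N)) : LaurentSeries ℚ) =
    toQ ℓ (coordFin ℓ).U := by
  rw [coe_jFull]
  exact (toQ_jR ℓ).symm

theorem coe_jFull_inv_eq_toQ :
    (((jFull N)⁻¹ : ↥(modularFunctionFieldFull N)) : LaurentSeries ℚ) =
      toQ ℓ (coordInf ℓ).U :=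
  (congrArg (fun x : LaurentSeries ℚ => x⁻¹) (coe_jFull N)).trans (toQ_jInv ℓ).symm

end FLTAgent.Igusa
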