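import Fermat.Agent.Igusa.Saturation
import Fermat.Agent.ModFun.FunctionField
import Fermat.Agent.Genus.Cosets

/-!
A spanning family of functions over `ℚ(j)` which stays independent modulo `ℓ`, from the degree of
the modular function field in characteristic `ℓ`.
-/

set_option autoImplicit false

noncomputable section

open ModularCurve Polynomial

namespace FLTAgent.Igusa

variable (N : ℕ) [NeZero N] {ℓ : ℕ} [hℓ : Fact ℓ.Prime]

/-- products of the expansions `j(q^d)`, `d ∣ N` -/
def monoms (R : Type*) [CommRing R] : Submonoid (LaurentSeries R) :=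
  Submonoid.closure {x | ∃ (d : ℕ) (_ : NeZero d), d ∣ N ∧ x = qExpand R d (jqModC R)}

omit [NeZero N] in
theorem map_monoms {R S : Type*} [CommRing R] [CommRing S] (f : R →+* S) :
    (monoms N R).map (coeffMap f : LaurentSeries R →* LaurentSeries S) = monoms N S := by
  rw [monoms, monoms, MonoidHom.map_mclosure]
  congr 1
  ext x
  constructor
  · rintro ⟨y, ⟨d, hd, hdN, rfl⟩, rfl⟩
    exact ⟨d, hd, hdN, by
      show coeffMap f (qExpand R d (jqModC R)) = _
      rw [coeffMap_qExpand, coeffMap_jqModC]⟩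
  · rintro ⟨d, hd, hdN, rfl⟩
    exact ⟨_, ⟨d, hd, hdN, rfl⟩, by
      show coeffMap f (qExpand R d (jqModC R)) = _
      rw [coeffMap_qExpand, coeffMap_jqModC]⟩

omit [NeZero N] in
theorem toQ_mem_full_of_monoms {m : LaurentSeries (RL ℓ)} (hm : m ∈ monoms N (RL ℓ)) :
    toQ ℓ m ∈ modularFunctionFieldFull N := by
  have h : toQ ℓ m ∈ monoms N ℚ := (map_monoms N (incQ ℓ)).le ⟨m, hm, rfl⟩
  refine (Submonoid.closure_le (S := (modularFunctionFieldFull N).toSubfield.toSubmonoid)).mpr ?_ h
  rintro x ⟨d, hd, hdN, rfl⟩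
  exact jqd_mem_full N hdN

/-- common denominators in `K(u)` -/
theorem exists_denom {K : Type*} [Field K] {u : LaurentSeries K} {n : ℕ}
    (c : Fin n → ↥(IntermediateField.adjoin K ({u} : Set (LaurentSeries K)))) :
    ∃ (D : K[X]) (P : Fin n → K[X]), pev u D ≠ 0 ∧
      ∀ i, pev u D * (c i : LaurentSeries K) = pev u (P i) := by
  induction n with
  | zero => exact ⟨1, Fin.elim0, by simp, fun i => i.elim0⟩
  | succ n ih =>
    obtain ⟨D, P, hD, hP⟩ := ih fun i => c i.succ
    obtain ⟨A, B, hAB⟩ := (IntermediateField.mem_adjoin_simple_iff K _).mp (c 0).2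
    rw [← pev_eq_aeval, ← pev_eq_aeval] at hAB
    rcases eq_or_ne (pev u B) 0 with hB | hB
    · rw [hB, div_zero] at hAB
      refine ⟨D, Fin.cons 0 P, hD, Fin.cases ?_ fun i => ?_⟩
      · rw [hAB, Fin.cons_zero, map_zero, mul_zero]
      · rw [Fin.cons_succ]; exact hP i
    · refine ⟨B * D, Fin.cons (A * D) (fun i => B * P i), by rw [map_mul]; exact mul_ne_zero hB hD,
        Fin.cases ?_ fun i => ?_⟩
      · rw [hAB, Fin.cons_zero, map_mul, map_mul]
        field_simp
      · rw [Fin.cons_succ, map_mul, map_mul, mul_assoc]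
        exact congrArg _ (hP i)

variable {N}

theorem linearIndependent_of_indep {n : ℕ} (m : Fin n → LaurentSeries (RL ℓ))
    (indep : ∀ P : Fin n → (ZMod ℓ)[X],
      ∑ i, pev (jqModC (ZMod ℓ)) (P i) * toF ℓ (m i) = 0 → P = 0) :
    LinearIndependent ↥QJ (fun i => toQ ℓ (m i)) := by
  rw [Fintype.linearIndependent_iff]
  intro c hc
  obtain ⟨D, P, hD, hP⟩ := exists_denom c
  have hsum : ∑ i, pev jq (P i) * toQ ℓ (m i) = 0 := by
    have h0 : pev jq D * ∑ i, (c i : LaurentSeries ℚ) * toQ ℓ (m i) = 0 := by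
      rw [show ∑ i, (c i : LaurentSeries ℚ) * toQ ℓ (m i) = 0 from hc, mul_zero]
    rw [Finset.mul_sum] at h0
    refine Eq.trans (Finset.sum_congr rfl fun i _ => ?_) h0
    rw [← mul_assoc, hP]
  intro i
  by_contra hi
  have hPi : P i ≠ 0 := fun h0 => by
    have := hP i
    rw [h0, map_zero, mul_eq_zero] at this
    exact hi (Subtype.ext (this.resolve_left hD))
  obtain ⟨s, Q, hs, hQ, i₀, hi₀⟩ := exists_primitive_poly (ℓ := ℓ) P ⟨i, hPi⟩
  have hrel : ∑ i, pev (jR ℓ) (Q i) * m i = 0 := by
    apply toQ_injective ℓ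
    rw [map_sum, map_zero]
    simp only [map_mul, toQ_pev_jR, hQ, mul_assoc, ← Finset.mul_sum, hsum, mul_zero]
  have h2 := congrArg (toF ℓ) hrel
  simp only [map_sum, map_mul, map_zero, toF, coeffMap_pev] at h2
  rw [show coeffMap (red ℓ) (jR ℓ) = jqModC (ZMod ℓ) from toF_jR ℓ] at h2
  exact hi₀ (congrFun (indep (fun i => (Q i).map (red ℓ)) h2) i₀)

theorem finrank_le_psi :
    ∃ V : IntermediateField ↥QJ (LaurentSeries ℚ), FiniteDimensional ↥QJ ↥V ∧
      Module.finrank ↥QJ ↥V ≤ dedekindPsi N ∧
      ∀ b ∈ modularFunctionFieldFull N, b ∈ V := by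
  obtain ⟨c, hc0, hc⟩ := ModFun.exists_rat_relation N
  set y : LaurentSeries ℚ := qExpand ℚ N jq
  set g : Polynomial ↥QJ := ∑ m ∈ Finset.range (ModFun.idx N + 1),
    Polynomial.C (⟨Polynomial.aeval jq (c m), IntermediateField.algebra_adjoin_le_adjoin ℚ _
      (Polynomial.aeval_mem_adjoin_singleton ℚ jq)⟩ : ↥QJ) * Polynomial.X ^ (ModFun.idx N - m)
  have hg : Polynomial.aeval y g = 0 := by
    simp only [g, map_sum, map_mul, Polynomial.aeval_C, map_pow, Polynomial.aeval_X]
    exact hc
  have hgdeg : g.natDegree ≤ ModFun.idx N :=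
    Polynomial.natDegree_sum_le_of_forall_le _ _ fun m _ =>
      (Polynomial.natDegree_C_mul_X_pow_le _ _).trans (Nat.sub_le _ _)
  have hgc : g.coeff (ModFun.idx N) = 1 := by
    simp only [g, Polynomial.finsetSum_coeff, Polynomial.coeff_C_mul, Polynomial.coeff_X_pow]
    rw [Finset.sum_eq_single 0]
    · simp [hc0]; rfl
    · intro m hm hm0
      rw [Finset.mem_range] at hm
      rw [if_neg (by omega), mul_zero]
    · simp
  have hgne : g ≠ 0 := fun h => by simp [h] at hgc
  have hint : IsIntegral ↥QJ y := isAlgebraic_iff_isIntegral.mp ⟨g, hgne, hg⟩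
  refine ⟨IntermediateField.adjoin ↥QJ ({y} : Set (LaurentSeries ℚ)),
    IntermediateField.adjoin.finiteDimensional hint, ?_, ?_⟩
  · rw [IntermediateField.adjoin.finrank hint, ← Genus.card_cosetSpace N,
      Nat.card_eq_fintype_card]
    exact (Polynomial.natDegree_le_of_dvd (minpoly.dvd _ _ hg) hgne).trans hgdeg
  · intro b hb
    rw [ModFun.modularFunctionFieldFull_eq, modularFunctionField] at hb
    set V := IntermediateField.adjoin ↥QJ ({y} : Set (LaurentSeries ℚ))
    induction hb using IntermediateField.adjoin_induction with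
    | mem x hx =>
      rcases hx with rfl | rfl
      · exact IntermediateField.algebraMap_mem V
          (⟨_, IntermediateField.mem_adjoin_simple_self ℚ jq⟩ : ↥QJ)
      · exact IntermediateField.mem_adjoin_simple_self ↥QJ y
    | algebraMap q => rw [eq_ratCast]; exact SubfieldClass.ratCast_mem V q
    | add x z _ _ h1 h2 => exact add_mem h1 h2
    | inv x _ h1 => exact inv_mem h1
    | mul x z _ _ h1 h2 => exact mul_mem h1 h2

theorem spans_of_indep (m : Fin (dedekindPsi N) → LaurentSeries (RL ℓ))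
    (mem : ∀ i, toQ ℓ (m i) ∈ modularFunctionFieldFull N)
    (indep : ∀ P : Fin (dedekindPsi N) → (ZMod ℓ)[X],
      ∑ i, pev (jqModC (ZMod ℓ)) (P i) * toF ℓ (m i) = 0 → P = 0)
    (b : LaurentSeries ℚ) (hb : b ∈ modularFunctionFieldFull N) :
    ∃ (D : ℚ[X]) (P : Fin (dedekindPsi N) → ℚ[X]), D ≠ 0 ∧
      pev jq D * b = ∑ i, pev jq (P i) * toQ ℓ (m i) := by
  obtain ⟨V, hfin, hle, hV⟩ := finrank_le_psi (N := N)
  have hli := linearIndependent_of_indep m indep
  let v : Fin (dedekindPsi N) → ↥V := fun i => ⟨toQ ℓ (m i), hV _ (mem i)⟩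
  have hliv : LinearIndependent ↥QJ v := LinearIndependent.of_comp V.val.toLinearMap hli
  have hrank : Fintype.card (Fin (dedekindPsi N)) = Module.finrank ↥QJ ↥V :=
    le_antisymm hliv.fintype_card_le_finrank (by rw [Fintype.card_fin]; exact hle)
  obtain ⟨c, hc⟩ := (Submodule.mem_span_range_iff_exists_fun ↥QJ).mp
    (show (⟨b, hV b hb⟩ : ↥V) ∈ Submodule.span ↥QJ (Set.range v) by
      rw [hliv.span_eq_top_of_card_eq_finrank' hrank]; trivial)
  obtain ⟨D, P, hD, hP⟩ := exists_denom c
  refine ⟨D, P, fun h => hD (by rw [h, map_zero]), ?_⟩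
  have hc' : ∑ i, (c i : LaurentSeries ℚ) * toQ ℓ (m i) = b := by
    have := congrArg (fun z : ↥V => (z : LaurentSeries ℚ)) hc
    simpa [v, IntermediateField.coe_sum, Algebra.smul_def] using this
  rw [← hc', Finset.mul_sum]
  exact Finset.sum_congr rfl fun i _ => by rw [← mul_assoc, hP]

set_option synthInstance.maxHeartbeats 400000 in
set_option maxHeartbeats 1000000 in
theorem nonempty_goodFamily (k : Type) [Field k] [CharP k ℓ]
    (hk : Module.finrank (IntermediateField.adjoin k ({jqModC k} : Set (LaurentSeries k)))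
        (IntermediateField.extendScalars
          (F := IntermediateField.adjoin k ({jqModC k} : Set (LaurentSeries k)))
          (E := modularFunctionFieldFullC k N)
          (IntermediateField.adjoin_le_iff.mpr
            (Set.singleton_subset_iff.mpr (jqModC_mem_full _ N)))) = dedekindPsi N) :
    Nonempty (GoodFamily N ℓ) := by
  classical
  set L := IntermediateField.adjoin k ({jqModC k} : Set (LaurentSeries k))
  set E : IntermediateField ↥L (LaurentSeries k) := IntermediateField.extendScalars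
    (F := L) (E := modularFunctionFieldFullC k N)
    (IntermediateField.adjoin_le_iff.mpr (Set.singleton_subset_iff.mpr (jqModC_mem_full _ N)))
    with hE
  have hψ : 0 < dedekindPsi N := by
    rw [← Genus.card_cosetSpace N, Nat.card_eq_fintype_card]
    exact Fintype.card_pos
  haveI : FiniteDimensional ↥L ↥E := Module.finite_of_finrank_pos (by rw [hk]; exact hψ)
  set gens := {x : LaurentSeries k | ∃ (d : ℕ) (_ : NeZero d), d ∣ N ∧ x = qExpand k d (jqModC k)}
    with hgens
  have hgenE : gens ⊆ (E : Set (LaurentSeries k)) := by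
    rintro x ⟨d, hd, hdN, rfl⟩
    exact jqModCd_mem_full k N hdN
  have hEspan : Subalgebra.toSubmodule E.toSubalgebra =
      Submodule.span ↥L (monoms N k : Set (LaurentSeries k)) := by
    have hEadj : E = IntermediateField.adjoin ↥L gens := by
      refine le_antisymm ?_ (IntermediateField.adjoin_le_iff.mpr hgenE)
      rw [hE, IntermediateField.extendScalars_le_iff, modularFunctionFieldFullC,
        IntermediateField.adjoin_le_iff]
      exact IntermediateField.subset_adjoin _ _
    rw [hEadj, IntermediateField.adjoin_toSubalgebra_of_isAlgebraic ?_, Algebra.adjoin_eq_span]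
    · rfl
    · intro x hx
      exact (IntermediateField.isAlgebraic_iff.mp
        (Algebra.IsAlgebraic.isAlgebraic (⟨x, hgenE hx⟩ : ↥E)))
  obtain ⟨T, hT, hspanT, hliT⟩ := exists_linearIndependent ↥L (monoms N k : Set (LaurentSeries k))
  let bT : Module.Basis ↥T ↥L ↥(Submodule.span ↥L (Set.range ((↑) : ↥T → LaurentSeries k))) :=
    Module.Basis.span hliT
  have hcard : Nat.card ↥T = dedekindPsi N := by
    rw [← Module.finrank_eq_nat_card_basis bT]
    refine Eq.trans (LinearEquiv.finrank_eq (LinearEquiv.ofEq _ (Subalgebra.toSubmodule E.toSubalgebra)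
      (by rw [Subtype.range_coe_subtype, Set.ofPred_mem_eq, hspanT, hEspan]))) ?_
    exact hk
  haveI : Finite ↥T := Nat.finite_of_card_ne_zero (by omega)
  let e : Fin (dedekindPsi N) ≃ ↥T := (Finite.equivFinOfCardEq hcard).symm
  set φ : RL ℓ →+* k := (ZMod.castHom (dvd_refl ℓ) k).comp (red ℓ) with hφ
  have hlift : ∀ i, ∃ m ∈ monoms N (RL ℓ), coeffMap φ m = (e i : LaurentSeries k) := fun i =>
    Submonoid.mem_map.mp ((map_monoms N φ).ge (hT (e i).2))
  choose m hm hme using hlift
  have hindep : ∀ P : Fin (dedekindPsi N) → (ZMod ℓ)[X],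
      ∑ i, pev (jqModC (ZMod ℓ)) (P i) * toF ℓ (m i) = 0 → P = 0 := by
    intro P hP
    have h2 := congrArg (coeffMap (ZMod.castHom (dvd_refl ℓ) k)) hP
    simp only [map_sum, map_mul, map_zero, coeffMap_pev, coeffMap_jqModC, toF,
      coeffMap_coeffMap] at h2
    rw [← hφ] at h2
    simp only [hme] at h2
    have hli : LinearIndependent ↥L (fun i => (e i : LaurentSeries k)) :=
      hliT.comp e e.injective
    have h3 := Fintype.linearIndependent_iff.mp hli (fun i =>
      (⟨pev (jqModC k) ((P i).map (ZMod.castHom (dvd_refl ℓ) k)), by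
        rw [pev_eq_aeval]
        exact IntermediateField.algebra_adjoin_le_adjoin k _
          (Polynomial.aeval_mem_adjoin_singleton k _)⟩ : ↥L)) h2
    funext i
    have h4 := pev_jqModC_eq_zero (congrArg (fun z : ↥L => (z : LaurentSeries k)) (h3 i))
    exact Polynomial.map_injective _ (ZMod.castHom (dvd_refl ℓ) k).injective
      (by rw [h4, Pi.zero_apply, Polynomial.map_zero])
  exact ⟨{ n := dedekindPsi N
           m := m
           mem := fun i => toQ_mem_full_of_monoms N (hm i)
           indep := hindep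
           spans := spans_of_indep m (fun i => toQ_mem_full_of_monoms N (hm i)) hindep }⟩

end FLTAgent.Igusa
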