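import Fermat.Agent.Igusa.Scheme
import Fermat.Agent.Igusa.Family
import Fermat.Agent.Good.Degree
import Fermat.Agent.Alg.Frobenius
import Fermat.Agent.Chebotarev.Counting

/-!
Integrality of the characteristic `ℓ` fibre from the degree statement of the good model.
-/

set_option autoImplicit false

noncomputable section

open AlgebraicGeometry CategoryTheory.Limits ModularCurve ModularCurve.IgusaScheme

namespace FLTAgent.Igusa

set_option maxHeartbeats 4000000 in
set_option synthInstance.maxHeartbeats 400000 in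
theorem isIntegral_specialFibre
    (N : ℕ) [NeZero N] (ℓ : ℕ) [Fact ℓ.Prime] (hℓN : ¬ ℓ ∣ N)
    (K : Type) [Field K] [CharP K ℓ] [Algebra ↥(GaloisRep.ratLocalizedAt ℓ) K] :
    IsIntegral ↑(pullback (igusaTo N ℓ)
      (Spec.map (CommRingCat.ofHom (algebraMap ↥(GaloisRep.ratLocalizedAt ℓ) K)))) := by
  obtain ⟨A, -, hA, -⟩ := FLTAgent.Alg.exists_place_frobenius ℓ (Fact.out : ℓ.Prime)
  haveI := FLTAgent.Chebotarev.charP_residue (Fact.out : ℓ.Prime) hA
  obtain ⟨G⟩ := FLTAgent.Igusa.nonempty_goodFamily (N := N) (ℓ := ℓ)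
    (IsLocalRing.ResidueField A) (FLTAgent.Good.finrank_fullC_residue A N Fact.out hℓN hA)
  exact FLTAgent.Igusa.isIntegral_fibre K
    (FLTAgent.Igusa.saturated_of_coord G (FLTAgent.Igusa.coordFin ℓ) FLTAgent.Igusa.coe_jFull_eq_toQ)
    (FLTAgent.Igusa.saturated_of_coord G (FLTAgent.Igusa.coordInf ℓ) FLTAgent.Igusa.coe_jFull_inv_eq_toQ)

end FLTAgent.Igusa
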