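import Fermat.Agent.Igusa.Series
import Mathlib.RingTheory.Polynomial.IntegralNormalization

/-!
Saturation of the Igusa charts from an `ℤ_(ℓ)`-family of functions whose reductions are
independent over `𝔽_ℓ(j)` and which span over `ℚ(j)`.
-/

set_option autoImplicit false

noncomputable section

open ModularCurve Polynomial

namespace FLTAgent.Igusa

variable (N : ℕ) (ℓ : ℕ) [hℓ : Fact ℓ.Prime]

/-- `j` over the local ring -/
abbrev jR : LaurentSeries (RL ℓ) := jqModC (RL ℓ)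

/-- `ι : ℤ_(ℓ) → ℚ` -/
abbrev incQ : RL ℓ →+* ℚ := (GaloisRep.ratLocalizedAt ℓ).subtype

theorem toQ_jR : toQ ℓ (jR ℓ) = jq := (coeffMap_jqModC _).trans jqModC_rat

theorem toF_jR : toF ℓ (jR ℓ) = jqModC (ZMod ℓ) := coeffMap_jqModC _

theorem toQ_pev_jR (D : (RL ℓ)[X]) : toQ ℓ (pev (jR ℓ) D) = pev jq (D.map (incQ ℓ)) := by
  rw [toQ, coeffMap_pev]
  exact congrArg (fun u => pev u _) (toQ_jR ℓ)

theorem toF_pev_jR_ne_zero {D : (RL ℓ)[X]} (hD : D.map (red ℓ) ≠ 0) :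
    toF ℓ (pev (jR ℓ) D) ≠ 0 := fun h => hD (pev_jqModC_eq_zero (by
  rwa [toF, coeffMap_pev, show coeffMap (red ℓ) (jR ℓ) = jqModC (ZMod ℓ) from toF_jR ℓ] at h))

theorem toQ_pev_jR_ne_zero {D : (RL ℓ)[X]} (hD : D.map (red ℓ) ≠ 0) :
    toQ ℓ (pev (jR ℓ) D) ≠ 0 := fun h => toF_pev_jR_ne_zero ℓ hD (by
  rw [(map_eq_zero_iff _ (toQ_injective ℓ)).mp h, map_zero])

theorem red_map_mul_ne_zero {D D' : (RL ℓ)[X]} (hD : D.map (red ℓ) ≠ 0)
    (hD' : D'.map (red ℓ) ≠ 0) : (D * D').map (red ℓ) ≠ 0 := by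
  rw [Polynomial.map_mul]; exact mul_ne_zero hD hD'

/-- Gauss-integral elements of `ℚ(j)` -/
def VS : Subring (LaurentSeries ℚ) where
  carrier := {c | ∃ A D : (RL ℓ)[X], D.map (red ℓ) ≠ 0 ∧
    toQ ℓ (pev (jR ℓ) D) * c = toQ ℓ (pev (jR ℓ) A)}
  one_mem' := ⟨1, 1, by simp, by simp⟩
  zero_mem' := ⟨0, 1, by simp, by simp⟩
  neg_mem' := by
    rintro c ⟨A, D, hD, h⟩
    exact ⟨-A, D, hD, by rw [mul_neg, h, map_neg, map_neg]⟩
  add_mem' := by
    rintro c c' ⟨A, D, hD, h⟩ ⟨A', D', hD', h'⟩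
    refine ⟨A * D' + A' * D, D * D', red_map_mul_ne_zero ℓ hD hD', ?_⟩
    simp only [map_mul, map_add]
    rw [← h, ← h']
    ring
  mul_mem' := by
    rintro c c' ⟨A, D, hD, h⟩ ⟨A', D', hD', h'⟩
    refine ⟨A * A', D * D', red_map_mul_ne_zero ℓ hD hD', ?_⟩
    simp only [map_mul]
    rw [← h, ← h']
    ring

/-- Gauss-integral functions -/
def GInt : Subalgebra ↥(VS ℓ) (LaurentSeries ℚ) where
  carrier := {b | b ∈ modularFunctionFieldFull N ∧ ∃ (D : (RL ℓ)[X]) (Z : LaurentSeries (RL ℓ)),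
    D.map (red ℓ) ≠ 0 ∧ toQ ℓ (pev (jR ℓ) D) * b = toQ ℓ Z}
  add_mem' := by
    rintro c c' ⟨hc, D, Z, hD, h⟩ ⟨hc', D', Z', hD', h'⟩
    refine ⟨add_mem hc hc', D * D', pev (jR ℓ) D' * Z + pev (jR ℓ) D * Z',
      red_map_mul_ne_zero ℓ hD hD', ?_⟩
    simp only [map_mul, map_add]
    rw [← h, ← h']
    ring
  mul_mem' := by
    rintro c c' ⟨hc, D, Z, hD, h⟩ ⟨hc', D', Z', hD', h'⟩
    refine ⟨mul_mem hc hc', D * D', Z * Z', red_map_mul_ne_zero ℓ hD hD', ?_⟩
    simp only [map_mul]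
    rw [← h, ← h']
    ring
  algebraMap_mem' := by
    rintro ⟨c, A, D, hD, h⟩
    refine ⟨?_, D, pev (jR ℓ) A, hD, h⟩
    show c ∈ modularFunctionFieldFull N
    have hne := toQ_pev_jR_ne_zero ℓ hD
    rw [mul_comm, ← eq_div_iff hne] at h
    rw [h]
    have hmem : ∀ P : (RL ℓ)[X], toQ ℓ (pev (jR ℓ) P) ∈ modularFunctionFieldFull N := fun P => by
      rw [toQ_pev_jR, pev_eq_aeval]
      have h1 : jq ∈ modularFunctionFieldFull N := by
        simpa [qExpand_one_apply] using (jqd_mem_full N (one_dvd N) : qExpand ℚ 1 jq ∈ _)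
      exact IntermediateField.adjoin_le_iff.mpr (Set.singleton_subset_iff.mpr h1)
        (IntermediateField.algebra_adjoin_le_adjoin ℚ _ (Polynomial.aeval_mem_adjoin_singleton ℚ jq))
    exact div_mem (hmem A) (hmem D)

/-- an `ℤ_(ℓ)`-family of functions, independent mod `ℓ`, spanning over `ℚ(j)` -/
structure GoodFamily where
  /-- size -/
  n : ℕ
  /-- the functions -/
  m : Fin n → LaurentSeries (RL ℓ)
  mem : ∀ i, toQ ℓ (m i) ∈ modularFunctionFieldFull N
  indep : ∀ P : Fin n → (ZMod ℓ)[X], ∑ i, pev (jqModC (ZMod ℓ)) (P i) * toF ℓ (m i) = 0 → P = 0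
  spans : ∀ b ∈ modularFunctionFieldFull N, ∃ (D : ℚ[X]) (P : Fin n → ℚ[X]), D ≠ 0 ∧
    pev jq D * b = ∑ i, pev jq (P i) * toQ ℓ (m i)

variable {N ℓ}

theorem exists_primitive_poly {n : ℕ} (P : Fin n → ℚ[X]) (h : ∃ i, P i ≠ 0) :
    ∃ (s : ℚ) (Q : Fin n → (RL ℓ)[X]), s ≠ 0 ∧ (∀ i, (Q i).map (incQ ℓ) = Polynomial.C s * P i) ∧
      ∃ i, (Q i).map (red ℓ) ≠ 0 := by
  classical
  set M := (Finset.univ.sup fun i => (P i).natDegree) + 1 with hM
  obtain ⟨i₀, hi₀⟩ := h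
  have hdeg : ∀ i, (P i).natDegree < M := fun i =>
    Nat.lt_succ_of_le (Finset.le_sup (f := fun i => (P i).natDegree) (Finset.mem_univ i))
  obtain ⟨s, r, hs, hr, ⟨⟨i₁, k₁⟩, h₁⟩⟩ := exists_primitive ℓ
    (fun p : Fin n × Fin M => (P p.1).coeff p.2)
    ⟨(i₀, ⟨(P i₀).natDegree, hdeg i₀⟩), by simpa using hi₀⟩
  refine ⟨s, fun i => ∑ k : Fin M, Polynomial.monomial (k : ℕ) (r (i, k)), hs, fun i => ?_, i₁, ?_⟩
  · rw [Polynomial.map_sum]
    conv_rhs => rw [(P i).as_sum_range' M (hdeg i), ← Fin.sum_univ_eq_sum_range, Finset.mul_sum]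
    refine Finset.sum_congr rfl fun k _ => ?_
    rw [Polynomial.map_monomial, Polynomial.C_mul_monomial]
    exact congrArg _ (hr (i, k))
  · intro h0
    have := congrArg (fun p : (ZMod ℓ)[X] => p.coeff (k₁ : ℕ)) h0
    simp only [Polynomial.coeff_map, Polynomial.finsetSum_coeff, Polynomial.coeff_monomial,
      Polynomial.coeff_zero] at this
    rw [Finset.sum_eq_single k₁] at this
    · rw [if_pos rfl] at this
      exact h₁ this
    · intro k _ hk
      rw [if_neg (fun e => hk (Fin.ext e))]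
    · exact fun hh => absurd (Finset.mem_univ _) hh

variable (B : GoodFamily N ℓ)

/-- every function is an integral combination over a primitive relation -/
theorem GoodFamily.rep {b : LaurentSeries ℚ} (hb : b ∈ modularFunctionFieldFull N) :
    ∃ (D : (RL ℓ)[X]) (P : Fin B.n → (RL ℓ)[X]), D ≠ 0 ∧
      (D.map (red ℓ) ≠ 0 ∨ ∃ i, (P i).map (red ℓ) ≠ 0) ∧
      toQ ℓ (pev (jR ℓ) D) * b = toQ ℓ (∑ i, pev (jR ℓ) (P i) * B.m i) := by
  obtain ⟨D, P, hD, h⟩ := B.spans b hb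
  obtain ⟨s, Q, hs, hQ, i₀, hi₀⟩ := exists_primitive_poly (ℓ := ℓ) (Fin.cons D P)
    ⟨0, by simpa using hD⟩
  refine ⟨Q 0, fun i => Q i.succ, ?_, ?_, ?_⟩
  · intro h0
    have := hQ 0
    rw [h0, Polynomial.map_zero, Fin.cons_zero] at this
    exact mul_ne_zero (by simpa using hs) hD this.symm
  · induction i₀ using Fin.cases with
    | zero => exact Or.inl hi₀
    | succ i => exact Or.inr ⟨i, hi₀⟩
  · rw [map_sum]
    simp only [map_mul, toQ_pev_jR, hQ, Fin.cons_zero, Fin.cons_succ, map_mul]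
    rw [mul_assoc, h, Finset.mul_sum]
    exact Finset.sum_congr rfl fun i _ => by ring

theorem GoodFamily.rep_ginT {b : LaurentSeries ℚ} (hb : b ∈ GInt N ℓ) :
    ∃ (D : (RL ℓ)[X]) (P : Fin B.n → (RL ℓ)[X]), D.map (red ℓ) ≠ 0 ∧
      toQ ℓ (pev (jR ℓ) D) * b = toQ ℓ (∑ i, pev (jR ℓ) (P i) * B.m i) := by
  obtain ⟨hbF, E, Z, hE, hEb⟩ := hb
  obtain ⟨D, P, -, hprim, h⟩ := B.rep hbF
  refine ⟨D, P, ?_, h⟩
  rcases hprim with hD | ⟨i, hi⟩
  · exact hD
  intro hD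
  apply hi
  have hrel : pev (jR ℓ) D * Z = pev (jR ℓ) E * ∑ i, pev (jR ℓ) (P i) * B.m i := by
    apply toQ_injective ℓ
    rw [map_mul, map_mul, ← hEb, ← h]
    ring
  have h2 := congrArg (toF ℓ) hrel
  have hD0 : toF ℓ (pev (jR ℓ) D) = 0 := by
    rw [toF, coeffMap_pev, hD, map_zero]
  rw [map_mul, map_mul, hD0, zero_mul, eq_comm, mul_eq_zero] at h2
  have h3 := h2.resolve_left (toF_pev_jR_ne_zero ℓ hE)
  simp only [map_sum, map_mul, toF, coeffMap_pev] at h3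
  rw [show coeffMap (red ℓ) (jR ℓ) = jqModC (ZMod ℓ) from toF_jR ℓ] at h3
  exact congrFun (B.indep (fun i => (P i).map (red ℓ)) h3) i

include B in
theorem isIntegral_of_mem_GInt {b : LaurentSeries ℚ} (hb : b ∈ GInt N ℓ) :
    IsIntegral ↥(VS ℓ) b := by
  classical
  refine IsIntegral.of_mem_of_fg (GInt N ℓ) ⟨Finset.univ.image fun i => toQ ℓ (B.m i), ?_⟩ b hb
  apply le_antisymm
  · rw [Submodule.span_le]
    intro x hx
    obtain ⟨i, -, rfl⟩ := Finset.mem_image.mp (Finset.mem_coe.mp hx)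
    exact ⟨B.mem i, 1, B.m i, by simp, by simp⟩
  · intro x hx
    obtain ⟨D, P, hD, h⟩ := B.rep_ginT hx
    have hne := toQ_pev_jR_ne_zero ℓ hD
    have hx' : x = ∑ i, (⟨toQ ℓ (pev (jR ℓ) (P i)) / toQ ℓ (pev (jR ℓ) D),
        P i, D, hD, mul_div_cancel₀ _ hne⟩ : ↥(VS ℓ)) • toQ ℓ (B.m i) := by
      show x = ∑ i, toQ ℓ (pev (jR ℓ) (P i)) / toQ ℓ (pev (jR ℓ) D) * toQ ℓ (B.m i)
      rw [(eq_div_iff hne).mpr ((mul_comm _ _).trans h), map_sum, Finset.sum_div]
      refine Finset.sum_congr rfl fun i _ => ?_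
      rw [map_mul]
      ring
    rw [hx']
    exact sum_mem fun i _ => Submodule.smul_mem _ _
      (Submodule.subset_span (Finset.mem_image.mpr ⟨i, Finset.mem_univ _, rfl⟩))

/-- a chart coordinate -/
structure Coord (ℓ : ℕ) [Fact ℓ.Prime] where
  /-- the series -/
  U : LaurentSeries (RL ℓ)
  gen : IntermediateField.adjoin ℚ ({toQ ℓ U} : Set (LaurentSeries ℚ)) =
    IntermediateField.adjoin ℚ ({jq} : Set (LaurentSeries ℚ))
  transQ : Transcendental ℚ (toQ ℓ U)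
  transF : ∀ P : (ZMod ℓ)[X], pev (toF ℓ U) P = 0 → P = 0

variable (C : Coord ℓ)

/-- `ℤ_(ℓ)[u]` -/
def Coord.ring : Subring (LaurentSeries ℚ) := ((toQ ℓ).comp (pev C.U)).range

include B in
theorem Coord.exists_series {b : LaurentSeries ℚ} (hb : b ∈ modularFunctionFieldFull N)
    (hint : IsIntegral ↥(C.ring) b) : ∃ Y, toQ ℓ Y = b := by
  obtain ⟨D, P, hD0, -, h⟩ := B.rep hb
  obtain ⟨p, hp, hev⟩ := hint
  have hlift : p.map (algebraMap ↥(C.ring) (LaurentSeries ℚ)) ∈ Polynomial.lifts (toQ ℓ) := by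
    refine (Polynomial.lifts_iff_coeff_lifts _).mpr fun k => ?_
    rw [Polynomial.coeff_map]
    obtain ⟨Q, hQ⟩ := (p.coeff k).2
    exact ⟨pev C.U Q, hQ⟩
  obtain ⟨q, hq, -, hqm⟩ := Polynomial.lifts_and_natDegree_eq_and_monic hlift (hp.map _)
  refine mem_range_toQ ℓ ?_ h hqm ?_
  · intro h0
    have h1 := congrArg (toQ ℓ) h0
    rw [toQ_pev_jR, map_zero, ← jqModC_rat] at h1
    exact hD0 (Polynomial.map_injective _ Subtype.val_injective
      (by rw [pev_jqModC_eq_zero h1, Polynomial.map_zero]))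
  · rw [Polynomial.eval₂_eq_eval_map, hq, ← Polynomial.eval₂_eq_eval_map]
    exact hev

theorem Coord.mem_ring_of {c : LaurentSeries ℚ} (hc : c ∈ VS ℓ) {P : ℚ[X]}
    (hP : c = Polynomial.aeval (toQ ℓ C.U) P) : c ∈ C.ring := by
  rcases eq_or_ne P 0 with rfl | hP0
  · rw [hP, map_zero]; exact zero_mem _
  obtain ⟨s, Q, hs, hQ, i, hi⟩ := exists_primitive_poly (ℓ := ℓ) (fun _ : Fin 1 => P) ⟨0, hP0⟩
  obtain rfl := Subsingleton.elim i 0
  have hQP : toQ ℓ (pev C.U (Q 0)) = algebraMap ℚ (LaurentSeries ℚ) s * c := by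
    rw [toQ, coeffMap_pev, hQ, pev_eq_aeval, map_mul, Polynomial.aeval_C, hP]
  rcases mem_or_inv_mem ℓ s with hmem | hmem
  · by_cases hr : red ℓ ⟨s, hmem⟩ = 0
    · exfalso
      obtain ⟨A, D, hD, h⟩ := hc
      have hrel : pev (jR ℓ) D * pev C.U (Q 0) = HahnSeries.C (⟨s, hmem⟩ : RL ℓ) * pev (jR ℓ) A := by
        apply toQ_injective ℓ
        rw [map_mul, map_mul, hQP, toQ, coeffMap_C, ← h]
        show _ = HahnSeries.C s * _
        rw [algebraMap_laurentSeries_eq_single, HahnSeries.C_apply]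
        ring
      have h2 := congrArg (toF ℓ) hrel
      rw [map_mul, map_mul, toF, coeffMap_C, hr, map_zero, zero_mul, mul_eq_zero] at h2
      rcases h2 with h2 | h2
      · exact toF_pev_jR_ne_zero ℓ hD h2
      · rw [coeffMap_pev] at h2
        exact hi (C.transF _ h2)
    · obtain ⟨t, ht⟩ := (isUnit_of_red_ne_zero ℓ hr).exists_left_inv
      refine ⟨Polynomial.C t * Q 0, ?_⟩
      show toQ ℓ (pev C.U (Polynomial.C t * Q 0)) = c
      rw [map_mul, map_mul, hQP]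
      have ht' : (t : ℚ) * s = 1 := congrArg Subtype.val ht
      simp only [pev, Polynomial.coe_eval₂RingHom, Polynomial.eval₂_C, toQ, coeffMap_C]
      rw [← mul_assoc, algebraMap_laurentSeries_eq_single, HahnSeries.C_apply]
      show HahnSeries.single (0 : ℤ) (t : ℚ) * _ * c = c
      rw [HahnSeries.single_mul_single, zero_add, ht', HahnSeries.single_zero_one, one_mul]
  · refine ⟨Polynomial.C ⟨s⁻¹, hmem⟩ * Q 0, ?_⟩
    show toQ ℓ (pev C.U (Polynomial.C ⟨s⁻¹, hmem⟩ * Q 0)) = c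
    rw [map_mul, map_mul, hQP]
    simp only [pev, Polynomial.coe_eval₂RingHom, Polynomial.eval₂_C, toQ, coeffMap_C]
    rw [← mul_assoc, algebraMap_laurentSeries_eq_single, HahnSeries.C_apply]
    show HahnSeries.single (0 : ℤ) s⁻¹ * _ * c = c
    rw [HahnSeries.single_mul_single, zero_add, inv_mul_cancel₀ hs, HahnSeries.single_zero_one, one_mul]

variable (ℓ) in
/-- `ℚ(j)` -/
abbrev QJ : IntermediateField ℚ (LaurentSeries ℚ) :=
  IntermediateField.adjoin ℚ ({jq} : Set (LaurentSeries ℚ))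

theorem transcendental_jq : Transcendental ℚ jq := fun ⟨P, hP, hPj⟩ => hP (pev_jqModC_eq_zero (by
  rw [jqModC_rat, pev_eq_aeval]; exact hPj))

theorem VS_le_QJ {c : LaurentSeries ℚ} (hc : c ∈ VS ℓ) : c ∈ QJ := by
  obtain ⟨A, D, hD, h⟩ := hc
  rw [mul_comm, ← eq_div_iff (toQ_pev_jR_ne_zero ℓ hD)] at h
  rw [h, toQ_pev_jR, toQ_pev_jR, pev_eq_aeval, pev_eq_aeval]
  exact div_mem (IntermediateField.algebra_adjoin_le_adjoin _ _ (Polynomial.aeval_mem_adjoin_singleton _ _))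
    (IntermediateField.algebra_adjoin_le_adjoin _ _ (Polynomial.aeval_mem_adjoin_singleton _ _))

variable (ℓ) in
/-- the Gauss valuation ring of `ℚ(j)` -/
def VV : ValuationSubring ↥QJ where
  toSubring := (VS ℓ).comap (algebraMap ↥QJ (LaurentSeries ℚ))
  mem_or_inv_mem' x := by
    rcases eq_or_ne x 0 with rfl | hx
    · exact Or.inl (Subring.zero_mem _)
    obtain ⟨P, Q, h⟩ := (IntermediateField.mem_adjoin_simple_iff ℚ _).mp x.2
    have hx' : (x : LaurentSeries ℚ) ≠ 0 := by simpa using hx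
    have hQ : Polynomial.aeval jq Q ≠ 0 := fun h0 => hx' (by rw [h, h0, div_zero])
    have hP : Polynomial.aeval jq P ≠ 0 := fun h0 => hx' (by rw [h, h0, zero_div])
    obtain ⟨s, R, hs, hR, i, hi⟩ := exists_primitive_poly (ℓ := ℓ) ![P, Q]
      ⟨1, fun h0 => hQ (by
        have h0' : Q = 0 := h0
        rw [h0', map_zero])⟩
    have hs' : algebraMap ℚ (LaurentSeries ℚ) s ≠ 0 := (_root_.map_ne_zero _).mpr hs
    have e0 : toQ ℓ (pev (jR ℓ) (R 0)) = algebraMap ℚ _ s * Polynomial.aeval jq P := by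
      rw [toQ_pev_jR, hR, pev_eq_aeval, map_mul, Polynomial.aeval_C]; rfl
    have e1 : toQ ℓ (pev (jR ℓ) (R 1)) = algebraMap ℚ _ s * Polynomial.aeval jq Q := by
      rw [toQ_pev_jR, hR, pev_eq_aeval, map_mul, Polynomial.aeval_C]; rfl
    fin_cases i
    · refine Or.inr ⟨R 1, R 0, hi, ?_⟩
      rw [e0, e1, map_inv₀]
      show _ * (x : LaurentSeries ℚ)⁻¹ = _
      rw [h, inv_div]
      field_simp
    · refine Or.inl ⟨R 0, R 1, hi, ?_⟩
      rw [e0, e1]
      show _ * (x : LaurentSeries ℚ) = _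
      rw [h]
      field_simp

theorem minpoly_coeff_mem {A : Type*} [CommRing A] [Algebra A ↥QJ] [Algebra A (LaurentSeries ℚ)]
    [IsScalarTower A ↥QJ (LaurentSeries ℚ)] {b : LaurentSeries ℚ} (hb : IsIntegral A b) (k : ℕ) :
    IsIntegral A ((minpoly ↥QJ b).coeff k) := by
  obtain ⟨f, hf, hfb⟩ := hb
  have hint : IsIntegral ↥QJ b := ⟨f.map (algebraMap A ↥QJ), hf.map _, by
    rw [Polynomial.eval₂_map, ← IsScalarTower.algebraMap_eq]; exact hfb⟩
  have hdvd : minpoly ↥QJ b ∣ f.map (algebraMap A ↥QJ) := minpoly.dvd _ _ (by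
    rw [Polynomial.aeval_map_algebraMap]; exact hfb)
  have := integralClosure.mem_lifts_of_monic_of_dvd_map ↥QJ hf (minpoly.monic hint) hdvd
  obtain ⟨y, hy⟩ := (Polynomial.lifts_iff_coeff_lifts _).mp this k
  rw [← hy]
  exact y.2

include B in
/-- saturation -/
theorem Coord.saturation {b : LaurentSeries ℚ} (hb : b ∈ modularFunctionFieldFull N)
    (hint : IsIntegral ↥(C.ring) b) {Y : LaurentSeries (RL ℓ)} (hY : toQ ℓ Y = b)
    (h0 : toF ℓ Y = 0) :
    ∃ b', b' ∈ modularFunctionFieldFull N ∧ IsIntegral ↥(C.ring) b' ∧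
      b = (ℓ : LaurentSeries ℚ) * b' := by
  obtain ⟨y, rfl⟩ := toF_eq_zero ℓ h0
  rw [map_mul, map_natCast] at hY
  refine ⟨toQ ℓ y, ?_, ?_, hY.symm⟩
  · have hℓ0 : (ℓ : LaurentSeries ℚ) ≠ 0 := fun h => by
      have h' := congrArg (fun s : LaurentSeries ℚ => s.coeff 0) h
      rw [← map_natCast (algebraMap ℚ (LaurentSeries ℚ)), algebraMap_laurentSeries_eq_single] at h'
      simp [hℓ.out.ne_zero] at h'
    have : toQ ℓ y = b / (ℓ : LaurentSeries ℚ) := by rw [← hY, mul_div_cancel_left₀ _ hℓ0]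
    rw [this]
    exact div_mem hb (natCast_mem _ _)
  set b' := toQ ℓ y with hb'
  have hb'F : b' ∈ modularFunctionFieldFull N := by
    have hℓ0 : (ℓ : LaurentSeries ℚ) ≠ 0 := fun h => by
      have h' := congrArg (fun s : LaurentSeries ℚ => s.coeff 0) h
      rw [← map_natCast (algebraMap ℚ (LaurentSeries ℚ)), algebraMap_laurentSeries_eq_single] at h'
      simp [hℓ.out.ne_zero] at h'
    have : b' = b / (ℓ : LaurentSeries ℚ) := by rw [← hY, mul_div_cancel_left₀ _ hℓ0]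
    rw [this]
    exact div_mem hb (natCast_mem _ _)
  -- integrality over the Gauss valuation ring
  have hV : IsIntegral ↥(VS ℓ) b' :=
    isIntegral_of_mem_GInt B ⟨hb'F, 1, y, by simp, by simp [hb']⟩
  have hVV : IsIntegral ↥(VV ℓ) b' := by
    refine hV.map_of_comp_eq
      ({ toFun := fun c => ⟨⟨c, VS_le_QJ c.2⟩, c.2⟩
         map_one' := rfl, map_mul' := fun _ _ => rfl
         map_zero' := rfl, map_add' := fun _ _ => rfl } : ↥(VS ℓ) →+* ↥(VV ℓ)) (RingHom.id _) ?_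
    exact RingHom.ext fun c => rfl
  -- integrality over ℚ[u]
  set Au := Algebra.adjoin ℚ ({toQ ℓ C.U} : Set (LaurentSeries ℚ)) with hAu
  have hbA : IsIntegral ↥Au b' := by
    have h1 : IsIntegral ↥Au b := hint.map_of_comp_eq
      ({ toFun := fun c => ⟨c, by
          obtain ⟨Q, hQ⟩ := c.2
          rw [← hQ]
          show toQ ℓ (pev C.U Q) ∈ Au
          rw [toQ, coeffMap_pev, pev_eq_aeval]
          exact Polynomial.aeval_mem_adjoin_singleton ℚ _⟩
         map_one' := rfl, map_mul' := fun _ _ => rfl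
         map_zero' := rfl, map_add' := fun _ _ => rfl } : ↥(C.ring) →+* ↥Au) (RingHom.id _)
      (RingHom.ext fun c => rfl)
    have e : b' = algebraMap ℚ (LaurentSeries ℚ) (ℓ : ℚ)⁻¹ * b := by
      rw [← hY, ← mul_assoc, map_inv₀, map_natCast, inv_mul_cancel₀, one_mul]
      intro h
      have h' := congrArg (fun s : LaurentSeries ℚ => s.coeff 0) h
      rw [← map_natCast (algebraMap ℚ (LaurentSeries ℚ)), algebraMap_laurentSeries_eq_single] at h'
      simp [hℓ.out.ne_zero] at h'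
    rw [e]
    refine IsIntegral.mul ?_ h1
    rw [IsScalarTower.algebraMap_apply ℚ ↥Au (LaurentSeries ℚ)]
    exact isIntegral_algebraMap
  have hgen : IntermediateField.adjoin ℚ ({toQ ℓ C.U} : Set (LaurentSeries ℚ)) = QJ := C.gen
  letI : Algebra ↥Au ↥QJ :=
    ({ toFun := fun c => ⟨c, hgen.le (IntermediateField.algebra_adjoin_le_adjoin ℚ _ c.2)⟩
       map_one' := rfl, map_mul' := fun _ _ => rfl
       map_zero' := rfl, map_add' := fun _ _ => rfl } : ↥Au →+* ↥QJ).toAlgebra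
  haveI : IsScalarTower ↥Au ↥QJ (LaurentSeries ℚ) := IsScalarTower.of_algebraMap_eq fun _ => rfl
  have hQint : IsIntegral ↥QJ b' := hbA.tower_top
  have hcoef : ∀ k, ((minpoly ↥QJ b').coeff k : LaurentSeries ℚ) ∈ C.ring := by
    intro k
    set c := (minpoly ↥QJ b').coeff k with hc
    have hcV : (c : LaurentSeries ℚ) ∈ VS ℓ := by
      have h1 : IsIntegral ↥(VV ℓ) c := minpoly_coeff_mem hVV k
      obtain ⟨z, hz⟩ := IsIntegrallyClosed.isIntegral_iff.mp h1
      have hz' : c ∈ VV ℓ := hz ▸ z.2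
      exact hz'
    have h2 : IsIntegral ↥Au c := minpoly_coeff_mem hbA k
    have h2' : IsIntegral ↥Au (c : LaurentSeries ℚ) := h2.map_of_comp_eq (RingHom.id ↥Au)
      (algebraMap ↥QJ (LaurentSeries ℚ)) (RingHom.ext fun x => rfl)
    haveI : IsIntegrallyClosed ↥Au :=
      IsIntegrallyClosed.of_equiv (Polynomial.algEquivOfTranscendental ℚ _ C.transQ).toRingEquiv
    obtain ⟨P₁, Q₁, hPQ⟩ := (IntermediateField.mem_adjoin_simple_iff ℚ _).mp (hgen.ge c.2)
    let Qf := FractionRing ↥Au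
    let φ : Qf →+* LaurentSeries ℚ :=
      IsFractionRing.lift (g := algebraMap ↥Au (LaurentSeries ℚ)) Subtype.val_injective
    have hφ : ∀ x : ↥Au, φ (algebraMap ↥Au Qf x) = (x : LaurentSeries ℚ) := fun x =>
      IsFractionRing.lift_algebraMap _ x
    set y : Qf := algebraMap ↥Au Qf (⟨_, Polynomial.aeval_mem_adjoin_singleton ℚ _ (p := P₁)⟩ : ↥Au) /
      algebraMap ↥Au Qf (⟨_, Polynomial.aeval_mem_adjoin_singleton ℚ _ (p := Q₁)⟩ : ↥Au) with hy
    have hyc : φ y = c := by rw [hy, map_div₀, hφ, hφ, hPQ]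
    obtain ⟨p, hp, hpc⟩ := h2'
    have hyint : IsIntegral ↥Au y := by
      refine ⟨p, hp, φ.injective ?_⟩
      rw [Polynomial.hom_eval₂, map_zero,
        show φ.comp (algebraMap ↥Au Qf) = algebraMap ↥Au (LaurentSeries ℚ) from RingHom.ext hφ, hyc]
      exact hpc
    obtain ⟨z, hz⟩ := IsIntegrallyClosed.algebraMap_eq_of_integral hyint
    obtain ⟨P, hP⟩ := (AlgHom.mem_range _).mp
      ((Algebra.adjoin_singleton_eq_range_aeval ℚ (toQ ℓ C.U)).le z.2)
    refine C.mem_ring_of hcV (P := P) ?_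
    refine Eq.trans ?_ hP.symm
    rw [← hyc, ← hz, hφ]
  refine ⟨(∑ k ∈ Finset.range ((minpoly ↥QJ b').natDegree + 1),
    Polynomial.monomial k (⟨_, hcoef k⟩ : ↥(C.ring))), ?_, ?_⟩
  · refine Polynomial.monic_of_degree_le (minpoly ↥QJ b').natDegree ?_ ?_
    · refine Polynomial.degree_sum_le _ _ |>.trans (Finset.sup_le fun k hk => ?_)
      exact (Polynomial.degree_monomial_le _ _).trans
        (by exact_mod_cast Nat.lt_succ_iff.mp (Finset.mem_range.mp hk))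
    · rw [Polynomial.finsetSum_coeff, Finset.sum_eq_single (minpoly ↥QJ b').natDegree]
      · rw [Polynomial.coeff_monomial, if_pos rfl]
        exact Subtype.ext (congrArg (fun x : ↥QJ => (x : LaurentSeries ℚ))
          (minpoly.monic hQint).coeff_natDegree)
      · intro k _ hk
        rw [Polynomial.coeff_monomial, if_neg hk]
      · intro h; exact absurd (Finset.mem_range.mpr (Nat.lt_succ_self _)) h
  · rw [Polynomial.eval₂_finsetSum]
    simp only [Polynomial.eval₂_monomial]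
    refine Eq.trans ?_ (minpoly.aeval ↥QJ b')
    rw [Polynomial.aeval_eq_sum_range]
    exact Finset.sum_congr rfl fun k _ => (Algebra.smul_def _ _).symm

end FLTAgent.Igusa
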