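import Fermat.Agent.Igusa.Tensor

/-!
The special fibre of the two-chart model is integral as soon as both charts are saturated.
-/

set_option autoImplicit false

noncomputable section

open AlgebraicGeometry CategoryTheory CategoryTheory.Limits ModularCurve ModularCurve.IgusaScheme
  TensorProduct

namespace FLTAgent.Igusa

theorem isIntegral_of_two {P A B : Scheme.{0}} (a : A ⟶ P) (b : B ⟶ P) [IsOpenImmersion a]
    [IsOpenImmersion b] [IsIntegral A] [IsIntegral B]
    (hcover : ∀ x, x ∈ Set.range a ∨ x ∈ Set.range b)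
    (hmeet : (Set.range a ∩ Set.range b).Nonempty) : IsIntegral P := by
  haveI : IrreducibleSpace P := by
    have ha : IsIrreducible (Set.range a) := by
      rw [← Set.image_univ]
      exact (IrreducibleSpace.isIrreducible_univ A).image _ a.continuous.continuousOn
    have hb : IsPreirreducible (Set.range b) := by
      rw [← Set.image_univ]
      exact (PreirreducibleSpace.isPreirreducible_univ (X := B)).image _ b.continuous.continuousOn
    have hbcl : Set.range b ⊆ closure (Set.range a) :=
      (subset_closure_inter_of_isPreirreducible_of_isOpen hb a.isOpenEmbedding.isOpen_range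
        (by rwa [Set.inter_comm])).trans (closure_mono Set.inter_subset_right)
    have huniv : closure (Set.range a) = Set.univ := Set.eq_univ_of_forall fun x =>
      (hcover x).elim (fun h => subset_closure h) (fun h => hbcl h)
    have := ha.closure
    rw [huniv] at this
    exact (irreducibleSpace_def P).mpr this
  haveI : ∀ x : P, _root_.IsReduced (P.presheaf.stalk x) := by
    intro x
    rcases hcover x with ⟨y, rfl⟩ | ⟨y, rfl⟩
    · exact isReduced_of_injective (a.stalkMap y).hom
        ((asIso (a.stalkMap y)).commRingCatIsoToRingEquiv.injective)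
    · exact isReduced_of_injective (b.stalkMap y).hom
        ((asIso (b.stalkMap y)).commRingCatIsoToRingEquiv.injective)
  haveI : IsReduced P := isReduced_of_isReduced_stalk P
  exact isIntegral_of_irreducibleSpace_of_isReduced P

variable {N : ℕ} [NeZero N] {ℓ : ℕ} [hℓ : Fact ℓ.Prime] (K : Type) [Field K] [CharP K ℓ]
  [Algebra (RL ℓ) K]

theorem isIntegral_chartPiece {S : Set ↥(modularFunctionFieldFull N)}
    (hS : Saturated (chartAlg N ℓ S))
    {ι : Spec (CommRingCat.of ↥(chartAlg N ℓ S)) ⟶ ModularCurve.IgusaScheme N ℓ}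
    (hι : ι ≫ igusaTo N ℓ =
      Spec.map (CommRingCat.ofHom (algebraMap (RL ℓ) ↥(chartAlg N ℓ S)))) :
    IsIntegral (pullback ι (pullback.fst (igusaTo N ℓ)
      (Spec.map (CommRingCat.ofHom (algebraMap (RL ℓ) K))))) := by
  haveI : IsDomain (CommRingCat.of (↥(chartAlg N ℓ S) ⊗[RL ℓ] K)) := hS.isDomain K
  exact IsIntegral.of_isIso ((pullbackSpecIso (RL ℓ) ↥(chartAlg N ℓ S) K).inv ≫
    (pullback.congrHom hι rfl).inv ≫
    (pullbackRightPullbackFstIso (igusaTo N ℓ) _ ι).inv)

theorem exists_mid_hom (hF : Saturated (chartAlgFin N ℓ)) :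
    ∃ m : ↥(chartAlgMid N ℓ) →+* LaurentSeries K,
      ∀ a : RL ℓ, m (algebraMap (RL ℓ) ↥(chartAlgMid N ℓ) a) =
        HahnSeries.C (algebraMap (RL ℓ) K a) := by
  letI := (inclFin N ℓ).toRingHom.toAlgebra
  haveI := isLocalization_away_inclFin N ℓ
  have hser : hF.ser (jChartFin N ℓ) = jR ℓ := by
    apply toQ_injective ℓ
    rw [hF.toQ_ser, toQ_jR]
    rfl
  have hu : IsUnit ((hF.red' K).toRingHom (jChartFin N ℓ)) := by
    show IsUnit (coeffMap (algebraMap (RL ℓ) K) (hF.ser (jChartFin N ℓ)))
    rw [hser, coeffMap_jqModC]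
    exact (jqModC_ne_zero_of_nontrivial K).isUnit
  refine ⟨IsLocalization.Away.lift (jChartFin N ℓ) hu, fun a => ?_⟩
  have he : algebraMap (RL ℓ) ↥(chartAlgMid N ℓ) a =
      algebraMap ↥(chartAlgFin N ℓ) ↥(chartAlgMid N ℓ) (algebraMap (RL ℓ) _ a) :=
    ((inclFin N ℓ).commutes a).symm
  rw [he, IsLocalization.Away.lift_eq]
  exact ((hF.red' K).commutes a).trans (algebraMap_series K a)

theorem isIntegral_fibre (hF : Saturated (chartAlgFin N ℓ)) (hI : Saturated (chartAlgInf N ℓ)) :
    IsIntegral ↑(pullback (igusaTo N ℓ)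
      (Spec.map (CommRingCat.ofHom (algebraMap (RL ℓ) K)))) := by
  set g := Spec.map (CommRingCat.ofHom (algebraMap (RL ℓ) K))
  haveI := isIntegral_chartPiece K hF (ιFin_igusaTo N ℓ)
  haveI := isIntegral_chartPiece K hI (ιInf_igusaTo N ℓ)
  refine isIntegral_of_two (pullback.snd (ιFin N ℓ) (pullback.fst (igusaTo N ℓ) g))
    (pullback.snd (ιInf N ℓ) (pullback.fst (igusaTo N ℓ) g)) (fun x => ?_) ?_
  · rw [IsOpenImmersion.range_pullbackSnd, IsOpenImmersion.range_pullbackSnd]
    exact mem_range_ιFin_or_mem_range_ιInf N ℓ (pullback.fst (igusaTo N ℓ) g x)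
  · obtain ⟨m, hm⟩ := exists_mid_hom K hF
    let mm : Spec (CommRingCat.of (LaurentSeries K)) ⟶ XMid N ℓ := Spec.map (CommRingCat.ofHom m)
    have hc : (mm ≫ fFin N ℓ ≫ ιFin N ℓ) ≫ igusaTo N ℓ =
        Spec.map (CommRingCat.ofHom (HahnSeries.C : K →+* LaurentSeries K)) ≫ g := by
      simp only [Category.assoc, ιFin_igusaTo, mm, g, ← Spec.map_comp, ← CommRingCat.ofHom_comp]
      congr 2
      refine RingHom.ext fun a => ?_
      exact (congrArg m ((inclFin N ℓ).commutes a)).trans (hm a)
    let s := pullback.lift _ _ hc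
    let pt : Spec (CommRingCat.of (LaurentSeries K)) :=
      (inferInstance : Nonempty (Spec (CommRingCat.of (LaurentSeries K)))).some
    refine ⟨s pt, ?_⟩
    rw [IsOpenImmersion.range_pullbackSnd, IsOpenImmersion.range_pullbackSnd]
    have hfst : pullback.fst (igusaTo N ℓ) g (s pt) = (mm ≫ fFin N ℓ ≫ ιFin N ℓ) pt := by
      rw [← pullback.lift_fst _ _ hc]; rfl
    constructor
    · exact ⟨fFin N ℓ (mm pt), hfst.symm⟩
    · refine ⟨fInf N ℓ (mm pt), ?_⟩
      rw [hfst, glue_condition]
      rfl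

end FLTAgent.Igusa
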