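import Fermat.Agent.Igusa.Arith
import Fermat.Prelude.Def_ModularCurve_X0ModL

/-!
Laurent series over the local ring: generic fibre, reduction, normality.
-/

set_option autoImplicit false

noncomputable section

open ModularCurve Polynomial

namespace FLTAgent.Igusa

variable (ℓ : ℕ) [hℓ : Fact ℓ.Prime]

/-- generic fibre -/
abbrev toQ : LaurentSeries (RL ℓ) →+* LaurentSeries ℚ :=
  coeffMap (GaloisRep.ratLocalizedAt ℓ).subtype

/-- special fibre -/
abbrev toF : LaurentSeries (RL ℓ) →+* LaurentSeries (ZMod ℓ) := coeffMap (red ℓ)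

theorem toQ_injective : Function.Injective (toQ ℓ) := fun x y h => HahnSeries.ext (funext fun k =>
  Subtype.ext (congrArg (fun s : LaurentSeries ℚ => s.coeff k) h))

theorem toF_eq_zero {x : LaurentSeries (RL ℓ)} (h : toF ℓ x = 0) :
    ∃ y : LaurentSeries (RL ℓ), x = (ℓ : LaurentSeries (RL ℓ)) * y := by
  have h' : ∀ k, red ℓ (x.coeff k) = 0 := fun k => congrArg (fun s : LaurentSeries _ => s.coeff k) h
  choose y hy using fun k => red_eq_zero ℓ (h' k)
  have hsupp : (Function.support y).IsPWO := by
    refine x.isPWO_support.mono fun k hk => ?_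
    simp only [HahnSeries.mem_support, Function.mem_support] at hk ⊢
    rw [hy k]
    exact mul_ne_zero (ell_ne_zero ℓ) hk
  refine ⟨⟨y, hsupp⟩, ?_⟩
  have hC : (ℓ : LaurentSeries (RL ℓ)) = HahnSeries.single (0 : ℤ) ((ℓ : RL ℓ)) := by
    rw [← map_natCast (HahnSeries.C : RL ℓ →+* LaurentSeries (RL ℓ)) ℓ]
    rfl
  ext k
  rw [hC, HahnSeries.coeff_single_zero_mul]
  exact congrArg Subtype.val (hy k)

/-- polynomial evaluation in series over a ring -/
def pev {R : Type*} [CommRing R] (u : LaurentSeries R) : R[X] →+* LaurentSeries R :=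
  Polynomial.eval₂RingHom (HahnSeries.C) u

theorem coeffMap_C {R S : Type*} [CommRing R] [CommRing S] (f : R →+* S) (r : R) :
    coeffMap f (HahnSeries.C r) = HahnSeries.C (f r) := coeffMap_single f 0 r

theorem coeffMap_pev {R S : Type*} [CommRing R] [CommRing S] (f : R →+* S) (u : LaurentSeries R)
    (P : R[X]) : coeffMap f (pev u P) = pev (coeffMap f u) (P.map f) := by
  induction P using Polynomial.induction_on' with
  | add p q hp hq => simp [hp, hq]
  | monomial n a =>
    simp only [pev, Polynomial.map_monomial, Polynomial.coe_eval₂RingHom,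
      Polynomial.eval₂_monomial, map_mul, map_pow, coeffMap_C]

theorem pev_eq_aeval {K : Type*} [Field K] (u : LaurentSeries K) (P : K[X]) :
    pev u P = Polynomial.aeval u P := by
  induction P using Polynomial.induction_on' with
  | add p q hp hq => simp [hp, hq]
  | monomial n a =>
    simp [pev, Polynomial.eval₂_monomial, Polynomial.aeval_monomial,
      algebraMap_laurentSeries_eq_single, HahnSeries.C_apply]

/-- pole of exact order one forces transcendence -/
theorem pev_jqModC_eq_zero {K : Type*} [Field K] {P : K[X]} (h : pev (jqModC K) P = 0) : P = 0 := by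
  by_contra hP
  have hc := congrArg (fun s : LaurentSeries K => s.coeff (-(P.natDegree : ℤ))) h
  simp only [pev, Polynomial.coe_eval₂RingHom, Polynomial.eval₂_eq_sum_range,
    HahnSeries.coeff_sum, HahnSeries.coeff_zero] at hc
  rw [Finset.sum_range_succ, Finset.sum_eq_zero, zero_add] at hc
  · rw [HahnSeries.C_apply, HahnSeries.coeff_single_zero_mul, coeff_jqModC_pow_self, mul_one] at hc
    exact hP (Polynomial.leadingCoeff_eq_zero.mp hc)
  · intro i hi
    rw [Finset.mem_range] at hi
    rw [HahnSeries.C_apply, HahnSeries.coeff_single_zero_mul,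
      coeff_jqModC_pow_of_lt K (by omega), mul_zero]

/-- `ℤ_(ℓ)((q))` is integrally closed -/
instance : IsIntegrallyClosed (LaurentSeries (RL ℓ)) := by
  haveI := @LaurentSeries.of_powerSeries_localization (RL ℓ) _
  haveI : UniqueFactorizationMonoid (PowerSeries (RL ℓ)) := inferInstance
  exact isIntegrallyClosed_of_isLocalization (R := PowerSeries (RL ℓ)) (LaurentSeries (RL ℓ))
    (Submonoid.powers PowerSeries.X) (powers_le_nonZeroDivisors_of_noZeroDivisors PowerSeries.X_ne_zero)

/-- an element integral over the integral series, and a quotient of two, is an integral series -/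
theorem mem_range_toQ {b : LaurentSeries ℚ} {Z W : LaurentSeries (RL ℓ)} (hW : W ≠ 0)
    (hb : toQ ℓ W * b = toQ ℓ Z) {P : Polynomial (LaurentSeries (RL ℓ))} (hP : P.Monic)
    (h : P.eval₂ (toQ ℓ) b = 0) : ∃ Y, toQ ℓ Y = b := by
  let Q := FractionRing (LaurentSeries (RL ℓ))
  let φ : Q →+* LaurentSeries ℚ := IsFractionRing.lift (toQ_injective ℓ)
  have hφ : ∀ x, φ (algebraMap _ Q x) = toQ ℓ x := fun x => IsFractionRing.lift_algebraMap _ x
  have hW0 : toQ ℓ W ≠ 0 := (map_ne_zero_iff _ (toQ_injective ℓ)).mpr hW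
  set y : Q := algebraMap _ Q Z / algebraMap _ Q W
  have hy : φ y = b := by
    rw [map_div₀, hφ, hφ, ← hb, mul_div_cancel_left₀ _ hW0]
  have hint : IsIntegral (LaurentSeries (RL ℓ)) y := by
    refine ⟨P, hP, φ.injective ?_⟩
    rw [Polynomial.hom_eval₂, map_zero, show φ.comp (algebraMap _ Q) = toQ ℓ from RingHom.ext hφ, hy]
    exact h
  obtain ⟨Y, hY⟩ := IsIntegrallyClosed.algebraMap_eq_of_integral hint
  exact ⟨Y, by rw [← hφ, hY, hy]⟩

end FLTAgent.Igusa
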