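import Fermat.Agent.Igusa.Coords
import Mathlib.RingTheory.TensorProduct.Basic
import Mathlib.LinearAlgebra.Basis.VectorSpace

/-!
A saturated chart stays a domain after base change to a field of characteristic `ℓ`.
-/

set_option autoImplicit false

noncomputable section

open ModularCurve Polynomial ModularCurve.IgusaScheme TensorProduct

namespace FLTAgent.Igusa

variable {N : ℕ} [NeZero N] {ℓ : ℕ} [hℓ : Fact ℓ.Prime]

/-- elements have integral expansions and a vanishing reduction means divisibility -/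
structure Saturated (B : Subalgebra (RL ℓ) ↥(modularFunctionFieldFull N)) : Prop where
  series : ∀ b : ↥B, ∃ Y : LaurentSeries (RL ℓ),
    toQ ℓ Y = ((b : ↥(modularFunctionFieldFull N)) : LaurentSeries ℚ)
  divisible : ∀ (b : ↥B) (Y : LaurentSeries (RL ℓ)),
    toQ ℓ Y = ((b : ↥(modularFunctionFieldFull N)) : LaurentSeries ℚ) → toF ℓ Y = 0 →
      ∃ b' : ↥B, b = (ℓ : ↥B) * b'

theorem saturated_of_coord (G : GoodFamily N ℓ) (C : Coord ℓ)
    {s : ↥(modularFunctionFieldFull N)} (hs : (s : LaurentSeries ℚ) = toQ ℓ C.U) :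
    Saturated (chartAlg N ℓ {s}) where
  series b := C.exists_series G b.1.2 ((mem_chartAlg_iff_series C hs b.1).mp b.2)
  divisible b Y hY h0 := by
    obtain ⟨b', hb'F, hb', he⟩ :=
      C.saturation G b.1.2 ((mem_chartAlg_iff_series C hs b.1).mp b.2) hY h0
    refine ⟨⟨⟨b', hb'F⟩, (mem_chartAlg_iff_series C hs _).mpr hb'⟩, Subtype.ext (Subtype.ext ?_)⟩
    simp only [MulMemClass.coe_mul, SubringClass.coe_natCast]
    exact he

variable {B : Subalgebra (RL ℓ) ↥(modularFunctionFieldFull N)}

/-- the expansion over the local ring -/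
def Saturated.ser (hB : Saturated B) : ↥B →+* LaurentSeries (RL ℓ) where
  toFun b := (hB.series b).choose
  map_one' := toQ_injective ℓ (by rw [(hB.series 1).choose_spec]; simp)
  map_zero' := toQ_injective ℓ (by rw [(hB.series 0).choose_spec]; simp)
  map_mul' a b := toQ_injective ℓ (by
    rw [map_mul, (hB.series a).choose_spec, (hB.series b).choose_spec,
      (hB.series (a * b)).choose_spec]
    simp)
  map_add' a b := toQ_injective ℓ (by
    rw [map_add, (hB.series a).choose_spec, (hB.series b).choose_spec,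
      (hB.series (a + b)).choose_spec]
    simp)

theorem Saturated.toQ_ser (hB : Saturated B) (b : ↥B) :
    toQ ℓ (hB.ser b) = ((b : ↥(modularFunctionFieldFull N)) : LaurentSeries ℚ) :=
  (hB.series b).choose_spec

theorem Saturated.ser_algebraMap (hB : Saturated B) (a : RL ℓ) :
    hB.ser (algebraMap (RL ℓ) ↥B a) = HahnSeries.C a := by
  apply toQ_injective ℓ
  rw [hB.toQ_ser, toQ, coeffMap_C]
  exact coe_algebraMap_RL a

variable (K : Type) [Field K] [CharP K ℓ] [Algebra (RL ℓ) K]

theorem algebraMap_eq_natCast_red (a : RL ℓ) :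
    algebraMap (RL ℓ) K a = (((red ℓ a).val : ℕ) : K) := by
  have h : red ℓ (a - ((red ℓ a).val : RL ℓ)) = 0 := by
    rw [map_sub, map_natCast, ZMod.natCast_zmod_val, sub_self]
  obtain ⟨x, hx⟩ := red_eq_zero ℓ h
  rw [sub_eq_iff_eq_add] at hx
  conv_lhs => rw [hx]
  rw [map_add, map_mul, map_natCast, map_natCast, CharP.cast_eq_zero, zero_mul, zero_add]

theorem algebraMap_series (a : RL ℓ) :
    algebraMap (RL ℓ) (LaurentSeries K) a = HahnSeries.C (algebraMap (RL ℓ) K a) := by
  rw [HahnSeries.algebraMap_apply', PowerSeries.algebraMap_apply, HahnSeries.ofPowerSeries_C]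

/-- constants in `K((q))` -/
def constSeries : K →ₐ[RL ℓ] LaurentSeries K where
  toRingHom := HahnSeries.C
  commutes' a := (algebraMap_series K a).symm

/-- reduction into `K((q))` -/
def Saturated.red' (hB : Saturated B) : ↥B →ₐ[RL ℓ] LaurentSeries K where
  toRingHom := (coeffMap (algebraMap (RL ℓ) K)).comp hB.ser
  commutes' a := by
    show coeffMap (algebraMap (RL ℓ) K) (hB.ser (algebraMap (RL ℓ) ↥B a)) = _
    rw [hB.ser_algebraMap, coeffMap_C, algebraMap_series]

/-- the special fibre of a chart inside `K((q))` -/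
def Saturated.fibreMap (hB : Saturated B) : (↥B ⊗[RL ℓ] K) →ₐ[RL ℓ] LaurentSeries K :=
  Algebra.TensorProduct.productMap (hB.red' K) (constSeries K)

theorem Saturated.fibreMap_tmul (hB : Saturated B) (b : ↥B) (c : K) :
    hB.fibreMap K (b ⊗ₜ c) = coeffMap (algebraMap (RL ℓ) K) (hB.ser b) * HahnSeries.C c := by
  rw [Saturated.fibreMap, Algebra.TensorProduct.productMap_apply_tmul]
  rfl

theorem Saturated.fibreMap_injective (hB : Saturated B) :
    Function.Injective (hB.fibreMap K) := by
  classical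
  letI : Algebra (ZMod ℓ) K := ZMod.algebra K ℓ
  set e := Module.Basis.ofVectorSpace (ZMod ℓ) K
  have hrep : ∀ z : ↥B ⊗[RL ℓ] K, ∃ f : _ →₀ ↥B, z = f.sum fun i b => b ⊗ₜ[RL ℓ] e i := by
    intro z
    induction z using TensorProduct.induction_on with
    | zero => exact ⟨0, by simp⟩
    | tmul x k =>
      refine ⟨(e.repr k).mapRange (fun c => (c.val : ℕ) • x) (by simp), ?_⟩
      rw [Finsupp.sum_mapRange_index (h := fun i b => b ⊗ₜ[RL ℓ] e i)
        (fun i => TensorProduct.zero_tmul ↥B (e i))]
      conv_lhs => rw [← e.linearCombination_repr k, Finsupp.linearCombination_apply, Finsupp.sum,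
        TensorProduct.tmul_sum]
      refine Finset.sum_congr rfl fun i _ => ?_
      show x ⊗ₜ[RL ℓ] (e.repr k i • e i) = ((e.repr k i).val • x) ⊗ₜ[RL ℓ] e i
      rw [TensorProduct.smul_tmul]
      congr 1
      rw [Algebra.smul_def, nsmul_eq_mul]
      congr 1
      conv_lhs => rw [← ZMod.natCast_zmod_val (e.repr k i), map_natCast]
    | add z w hz hw =>
      obtain ⟨f, rfl⟩ := hz
      obtain ⟨g, rfl⟩ := hw
      exact ⟨f + g, (Finsupp.sum_add_index' (h := fun i b => b ⊗ₜ[RL ℓ] e i)
        (fun i => TensorProduct.zero_tmul ↥B (e i))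
        (fun i a b => TensorProduct.add_tmul a b (e i))).symm⟩
  rw [injective_iff_map_eq_zero]
  intro z hz
  obtain ⟨f, rfl⟩ := hrep z
  refine Finset.sum_eq_zero fun i hi => ?_
  have hred : toF ℓ (hB.ser (f i)) = 0 := by
    ext n
    rw [toF, coeffMap_coeff, HahnSeries.coeff_zero]
    have hn := congrArg (fun s : LaurentSeries K => s.coeff n) hz
    simp only [Finsupp.sum, map_sum, Saturated.fibreMap_tmul, HahnSeries.coeff_sum,
      HahnSeries.coeff_zero] at hn
    refine linearIndependent_iff'.mp e.linearIndependent f.support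
      (fun i => red ℓ ((hB.ser (f i)).coeff n)) ?_ i hi
    refine Eq.trans (Finset.sum_congr rfl fun j _ => ?_) hn
    rw [mul_comm (coeffMap _ _), HahnSeries.C_apply, HahnSeries.coeff_single_zero_mul,
      coeffMap_coeff, algebraMap_eq_natCast_red, Algebra.smul_def, mul_comm]
    congr 1
    conv_lhs => rw [← ZMod.natCast_zmod_val (red ℓ _), map_natCast]
  obtain ⟨b', hb'⟩ := hB.divisible (f i) (hB.ser (f i)) (hB.toQ_ser _) hred
  show f i ⊗ₜ[RL ℓ] e i = 0
  rw [hb', ← nsmul_eq_mul, TensorProduct.smul_tmul, nsmul_eq_mul, CharP.cast_eq_zero, zero_mul,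
    TensorProduct.tmul_zero]

theorem Saturated.isDomain (hB : Saturated B) : IsDomain (↥B ⊗[RL ℓ] K) :=
  (hB.fibreMap_injective K).isDomain

end FLTAgent.Igusa
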